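/-
M59 / Sink B, cell [TAME-GEN] (helper15).  Prefix `m59tg_`.

THE ABSTRACT LIFTING LEMMA.  `G` an abelian group, `p` a prime, `I` an index set with a family of
ADDITIVE maps `d σ : G → G` (in use: `d σ x = σ • x - x`, `σ` in the inertia group, which is additive
and preserves `G[p ^ n]`).  If at every level `n` the family `{d σ | G[p ^ n]}` is CYCLIC (all
integer multiples of one `d τ_n`), then ONE `σ₀` generates it at every level:

* `m59tg_lift` : `∃ σ₀, ∀ n σ, ∃ j : ℤ, ∀ x, p ^ n • x = 0 → d σ x = j • d σ₀ x`.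

(Proof: take the first level `n₀` where the family is nonzero and `σ₀ = τ_{n₀}`; a generator of a
nonzero level stays a generator one level up, because `p ∣ a` in `d σ₀ = a • d τ_{n+1}` would give
`d σ₀ = 0` on `G[p ^ n]`.)
-/
import Mathlib

set_option autoImplicit false
set_option linter.unusedSectionVars false
set_option linter.unusedVariables false

namespace Fermat.Agent.M59

section Lift

variable {G : Type*} [AddCommGroup G] {I : Type*} (p : ℕ) (hp : p.Prime) (d : I → G →+ G)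

/-- the family is generated by `σ₀` at level `n` -/
def m59tg_Gen (n : ℕ) (σ₀ : I) : Prop :=
  ∀ σ : I, ∃ j : ℤ, ∀ x : G, p ^ n • x = 0 → d σ x = j • d σ₀ x

/-- the family vanishes at level `n` -/
def m59tg_Zero (n : ℕ) : Prop := ∀ (σ : I) (x : G), p ^ n • x = 0 → d σ x = 0

theorem m59tg_zero_of_succ {n : ℕ} (h : m59tg_Zero p d (n + 1)) : m59tg_Zero p d n := by
  intro σ x hx
  apply h σ x
  rw [pow_succ, mul_comm, mul_smul, hx, smul_zero]

theorem m59tg_zero_mono {n m : ℕ} (hnm : n ≤ m) (h : m59tg_Zero p d m) : m59tg_Zero p d n := by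
  induction hnm with
  | refl => exact h
  | step _ ih => exact ih (m59tg_zero_of_succ p d h)

theorem m59tg_gen_of_zero {n : ℕ} (h : m59tg_Zero p d n) (σ₀ : I) : m59tg_Gen p d n σ₀ := by
  intro σ
  refine ⟨0, fun x hx => ?_⟩
  rw [zero_smul, h σ x hx]

include hp in
/-- **the step**: a generator of a nonzero level `n` is a generator of level `n + 1`. -/
theorem m59tg_step {n : ℕ} {σ₀ : I} (hgen : m59tg_Gen p d n σ₀) (hnz : ¬ m59tg_Zero p d n)
    (hcyc : ∃ τ : I, m59tg_Gen p d (n + 1) τ) : m59tg_Gen p d (n + 1) σ₀ := by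
  obtain ⟨τ, hτ⟩ := hcyc
  obtain ⟨a, ha⟩ := hτ σ₀
  obtain ⟨c, hc⟩ := hgen τ
  have hpZ : Prime (p : ℤ) := Nat.prime_iff_prime_int.mp hp
  have hsub : ∀ x : G, p ^ n • x = 0 → p ^ (n + 1) • x = 0 := fun x hx => by
    rw [pow_succ, mul_comm, mul_smul, hx, smul_zero]
  have htor : ∀ (k : ℕ) (σ : I) (x : G), p ^ k • x = 0 → ((p : ℤ) ^ k) • d σ x = 0 := by
    intro k σ x hx
    rw [← map_zsmul, ← Nat.cast_pow, natCast_zsmul, hx, map_zero]
  by_cases hpa : (p : ℤ) ∣ a
  · -- impossible: `d σ₀ = 0` on `G[p ^ n]`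
    exfalso
    apply hnz
    obtain ⟨b, rfl⟩ := hpa
    have hcop : IsCoprime (1 - (p : ℤ) * b * c) ((p : ℤ) ^ n) :=
      IsCoprime.pow_right ⟨1, b * c, by ring⟩
    obtain ⟨u, v, huv⟩ := hcop
    have hσ₀ : ∀ x : G, p ^ n • x = 0 → d σ₀ x = 0 := by
      intro x hx
      have h1 : d σ₀ x = ((p : ℤ) * b * c) • d σ₀ x := by
        conv_lhs => rw [ha x (hsub x hx), hc x hx]
        rw [smul_smul]
      have h2 : (1 - (p : ℤ) * b * c) • d σ₀ x = 0 := by
        rw [sub_smul, one_smul, ← h1, sub_self]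
      have h3 : d σ₀ x = (u * (1 - (p : ℤ) * b * c) + v * (p : ℤ) ^ n) • d σ₀ x := by
        rw [huv, one_smul]
      rw [h3, add_smul, mul_smul, h2, smul_zero, mul_smul, htor n σ₀ x hx, smul_zero, add_zero]
    intro σ x hx
    obtain ⟨j, hj⟩ := hgen σ
    rw [hj x hx, hσ₀ x hx, smul_zero]
  · -- `a` is invertible modulo `p ^ (n + 1)`
    have hcop : IsCoprime a ((p : ℤ) ^ (n + 1)) :=
      IsCoprime.pow_right ((hpZ.irreducible.coprime_iff_not_dvd).mpr hpa).symm
    obtain ⟨u, v, huv⟩ := hcop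
    have hτσ₀ : ∀ x : G, p ^ (n + 1) • x = 0 → d τ x = u • d σ₀ x := by
      intro x hx
      have h3 : d τ x = (u * a + v * (p : ℤ) ^ (n + 1)) • d τ x := by
        rw [huv, one_smul]
      rw [h3, add_smul, mul_smul, mul_smul, htor (n + 1) τ x hx, smul_zero, add_zero, ha x hx]
    intro σ
    obtain ⟨j, hj⟩ := hτ σ
    refine ⟨j * u, fun x hx => ?_⟩
    rw [hj x hx, hτσ₀ x hx, smul_smul]

include hp in
/-- **THE LIFTING LEMMA**: levelwise cyclic ⟹ one generator for all levels. -/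
theorem m59tg_lift [Nonempty I] (hcyc : ∀ n : ℕ, ∃ τ : I, m59tg_Gen p d n τ) :
    ∃ σ₀ : I, ∀ n : ℕ, m59tg_Gen p d n σ₀ := by
  classical
  by_cases hall : ∀ n, m59tg_Zero p d n
  · obtain ⟨σ₀⟩ := (inferInstance : Nonempty I)
    exact ⟨σ₀, fun n => m59tg_gen_of_zero p d (hall n) σ₀⟩
  · push Not at hall
    set n₀ := Nat.find hall with hn₀
    have hn₀nz : ¬ m59tg_Zero p d n₀ := Nat.find_spec hall
    have hlt : ∀ n < n₀, m59tg_Zero p d n := fun n hn => by
      by_contra h
      exact Nat.find_min hall hn h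
    obtain ⟨σ₀, hσ₀⟩ := hcyc n₀
    refine ⟨σ₀, fun n => ?_⟩
    by_cases hn : n < n₀
    · exact m59tg_gen_of_zero p d (hlt n hn) σ₀
    · push Not at hn
      induction n, hn using Nat.le_induction with
      | base => exact hσ₀
      | succ n hn ih =>
        refine m59tg_step p hp d ih (fun hz => hn₀nz ?_) (hcyc (n + 1))
        exact m59tg_zero_mono p d hn hz

end Lift

end Fermat.Agent.M59
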