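/-
M59 / Sink B, cell [TAME-GEN] (helper15).  Prefix `m59tg_`.

**A UNIFORM TAME GENERATOR**, for EVERY pair of primes `r ≠ q` (no hypothesis `r ∣ q - 1`):
`q ‖ N`, `A` a valuation ring of `ℚ̄` over `q`, `I = I_A`.  There is ONE `σ₀ ∈ I` such that

* `m59tg_exists_gen`  : for every `n` and every `x ∈ J₀(N)[r ^ n]`, `σ₀ • x = x ⟹ ∀ σ ∈ I, σ • x = x`;
* `m59tg_tate`        : for every `x ∈ T_r J₀(N)`, `ρ(σ₀) x = x ⟹ ∀ σ ∈ I, ρ(σ) x = x`
  (= the cell `m59sb_TameGen` of `SinkB/Frame.lean`, see `m59tg_tameGen`).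

Proof: at each level the image of `I` is cyclic (`mzf3_cyclic'`, tame inertia) and unipotent
(`mzf3_unip`), so `σ ↦ (σ - 1)|J₀(N)[r ^ n]` is a cyclic family; `m59tg_lift` (TameGen/Abs.lean) gives a
generator for all levels at once.
-/
import Mathlib
import Fermat.Agent.M59.SinkB.TameGen.Abs
import Fermat.Agent.MZ.F3.CountInertia
import Fermat.Agent.M59.SinkB.Frame

set_option autoImplicit false
set_option linter.unusedSectionVars false
set_option linter.unusedVariables false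
set_option linter.style.haveILetI false
set_option synthInstance.maxHeartbeats 400000
set_option maxHeartbeats 1000000

noncomputable section

namespace Fermat.Agent.M59

open ModularCurve Fermat.Agent.JT3 Fermat.Agent.MZ

local notation "Qb" => AlgebraicClosure ℚ
local notation "GQ" => (AlgebraicClosure ℚ ≃ₐ[ℚ] AlgebraicClosure ℚ)

section Main

variable (N : ℕ) [NeZero N]

/-- `x ↦ σ • x - x` as an additive map -/
def m59tg_d (σ : GQ) : JZero N →+ JZero N :=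
  DistribSMul.toAddMonoidHom (JZero N) σ - AddMonoidHom.id (JZero N)

theorem m59tg_d_apply (σ : GQ) (x : JZero N) : m59tg_d N σ x = σ • x - x := rfl

/-- **levelwise cyclicity** of the family `σ ↦ (σ - 1)` on `J₀(N)[r ^ n]`, `σ ∈ I_A`. -/
theorem m59tg_level (q : ℕ) (hq : q.Prime) (hqN : q ∣ N) (hq2 : ¬ q ^ 2 ∣ N)
    (A : ValuationSubring Qb) (hA : A.LiesOverPrime q) (r : ℕ) (hr : r.Prime) (hrq : r ≠ q)
    (k : ℕ) :
    ∃ τ : ↥(A.inertiaSubgroupIn ℚ),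
      m59tg_Gen r (fun σ : ↥(A.inertiaSubgroupIn ℚ) => m59tg_d N σ.1) k τ := by
  classical
  haveI : Fact r.Prime := ⟨hr⟩
  set W : AddSubgroup (JZero N) := tm_K (JZero N) r k with hW
  have hWt : ∀ x ∈ W, r ^ k • x = 0 := fun x hx => tm_mem_K.mp hx
  have hWs : ∀ (σ : GQ), ∀ x ∈ W, σ • x ∈ W := fun σ x hx => by
    rw [hW, tm_mem_K] at hx ⊢
    have h1 : r ^ k • σ • x = σ • (r ^ k • x) :=
      (map_nsmul (DistribSMul.toAddMonoidHom (JZero N) σ) (r ^ k) x).symm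
    rw [h1, hx]
    exact map_zero (DistribSMul.toAddMonoidHom (JZero N) σ)
  letI act : DistribMulAction GQ ↥W := mzf3_ki_act W hWs
  haveI : Finite {x : JZero N // r ^ k • x = 0} := tj_finite N r k
  haveI : Finite ↥W :=
    Finite.of_injective (fun x : ↥W => (⟨x.1, hWt x.1 x.2⟩ : {x : JZero N // r ^ k • x = 0}))
      (fun a b h => Subtype.ext (by
        have h' := congrArg Subtype.val h
        exact h'))
  have hkill : ∀ x : ↥W, r ^ k • x = 0 := fun x => Subtype.ext (hWt x.1 x.2)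
  let c' : GQ → ↥W := fun _ => 0
  have hc' : mzf3_coc_IsCocycle c' := fun s t => by
    show (0 : ↥W) = 0 + s • (0 : ↥W)
    rw [smul_zero, add_zero]
  set f := mzf3_coc_aff c' hc' with hf
  set I := A.inertiaSubgroupIn ℚ with hI
  have hun : ∀ σ ∈ I, ∀ x : ↥W, σ • σ • x - 2 • σ • x + x = 0 := fun σ hσ x =>
    Subtype.ext (mzf3_unip N q hq hqN hq2 A hA σ hσ r hr hrq k x.1 (hWt x.1 x.2))
  have hfixx : ∀ x : ↥W, ∃ L : IntermediateField ℚ Qb, FiniteDimensional ℚ L ∧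
      ∀ σ : GQ, (∀ y ∈ L, σ y = y) → σ • x.1 = x.1 := fun x => egs_exists_fixing N x.1
  choose L hLfin hLfix using hfixx
  let L1 : IntermediateField ℚ Qb := ⨆ x, L x
  haveI : FiniteDimensional ℚ ↥L1 := by
    haveI := hLfin
    exact IntermediateField.finiteDimensional_iSup_of_finite
  have hL1 : ∀ σ : GQ, (∀ y ∈ L1, σ y = y) → f σ = 1 := by
    intro σ hσ
    ext x
    have h2 : σ • x.1 = x.1 := hLfix x σ (fun y hy =>
      hσ y ((le_iSup L x : L x ≤ ⨆ x, L x) hy))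
    show σ • x.1 + (0 : JZero N) = x.1
    rw [h2, add_zero]
  have hord : ∀ σ ∈ I, f σ ^ r ^ (k + k) = 1 := fun σ hσ => by
    rw [pow_add]
    exact mzf3_coc_aff_pow_eq_one hc' σ (hun σ hσ) (r ^ k) hkill
  obtain ⟨τ, hτ, hcyc⟩ := mzf3_cyclic' A hq hA f hr hrq L1 hL1
    (fun σ hσ => ⟨k + k, hord σ hσ⟩)
  refine ⟨⟨τ, hτ⟩, fun σ => ?_⟩
  -- `f σ` is a natural power of `f τ`
  have hfin : IsOfFinOrder (f τ) :=
    isOfFinOrder_iff_pow_eq_one.mpr ⟨r ^ (k + k), pow_pos hr.pos _, hord τ hτ⟩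
  have hpow : f σ.1 ∈ Submonoid.powers (f τ) :=
    hfin.mem_powers_iff_mem_zpowers.mpr (hcyc σ.1 σ.2)
  obtain ⟨j, hj⟩ := hpow
  refine ⟨(j : ℤ), fun x hx => ?_⟩
  have hxW : x ∈ W := tm_mem_K.mpr hx
  have h1 : f (τ ^ j) = f σ.1 := by rw [map_pow]; exact hj
  have h2 := DFunLike.congr_fun h1 ⟨x, hxW⟩
  rw [mzf3_coc_aff_apply, mzf3_coc_aff_apply] at h2
  have h3 : (τ ^ j) • (⟨x, hxW⟩ : ↥W) = σ.1 • (⟨x, hxW⟩ : ↥W) := by
    have h4 : (τ ^ j) • (⟨x, hxW⟩ : ↥W) + 0 = σ.1 • (⟨x, hxW⟩ : ↥W) + 0 := h2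
    rw [add_zero, add_zero] at h4
    exact h4
  have h6 := mzf3_coc_tpow τ (hun τ hτ) j ⟨x, hxW⟩
  rw [h3] at h6
  have h7 := congrArg Subtype.val h6
  show σ.1 • x - x = (j : ℤ) • (τ • x - x)
  have h8 : σ.1 • x = x + j • (τ • x - x) := h7
  rw [h8, natCast_zsmul]
  abel

/-- **[TAME-GEN], finite levels**: one `σ₀ ∈ I_A` whose fixed points in `J₀(N)[r ^ n]` are the
`I_A`-fixed points, for all `n` at once. -/
theorem m59tg_exists_gen (q : ℕ) (hq : q.Prime) (hqN : q ∣ N) (hq2 : ¬ q ^ 2 ∣ N)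
    (A : ValuationSubring Qb) (hA : A.LiesOverPrime q) (r : ℕ) (hr : r.Prime) (hrq : r ≠ q) :
    ∃ σ₀ ∈ A.inertiaSubgroupIn ℚ, ∀ (n : ℕ) (x : JZero N), r ^ n • x = 0 → σ₀ • x = x →
      ∀ σ ∈ A.inertiaSubgroupIn ℚ, σ • x = x := by
  haveI : Nonempty ↥(A.inertiaSubgroupIn ℚ) := ⟨1⟩
  obtain ⟨σ₀, hσ₀⟩ := m59tg_lift r hr
    (fun σ : ↥(A.inertiaSubgroupIn ℚ) => m59tg_d N σ.1)
    (fun n => m59tg_level N q hq hqN hq2 A hA r hr hrq n)
  refine ⟨σ₀.1, σ₀.2, fun n x hx hfix σ hσ => ?_⟩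
  obtain ⟨j, hj⟩ := hσ₀ n ⟨σ, hσ⟩
  have h1 := hj x hx
  rw [m59tg_d_apply, m59tg_d_apply, hfix, sub_self, smul_zero] at h1
  exact sub_eq_zero.mp h1

/-- **[TAME-GEN], Tate module form.** -/
theorem m59tg_tate (q : ℕ) (hq : q.Prime) (hqN : q ∣ N) (hq2 : ¬ q ^ 2 ∣ N)
    (A : ValuationSubring Qb) (hA : A.LiesOverPrime q) (r : ℕ) [hr : Fact r.Prime] (hrq : r ≠ q) :
    ∃ σ₀ ∈ A.inertiaSubgroupIn ℚ, ∀ x : tj_T N r, tj_rho N r σ₀ x = x →
      ∀ σ ∈ A.inertiaSubgroupIn ℚ, tj_rho N r σ x = x := by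
  obtain ⟨σ₀, hσ₀, hgen⟩ := m59tg_exists_gen N q hq hqN hq2 A hA r hr.out hrq
  refine ⟨σ₀, hσ₀, fun x hx σ hσ => ?_⟩
  refine tm_ext fun n => ?_
  rw [tj_rho_apply]
  refine hgen n (x.1 n) (tm_tor x n) ?_ σ hσ
  have := congrArg (fun y : tj_T N r => y.1 n) hx
  exact this

end Main

section Cell

variable {N' q : ℕ} [NeZero N'] [NeZero q] {A1 A2 : Type} [AddCommGroup A1] [AddCommGroup A2]

/-- **the cell [TAME-GEN] of `SinkB/Frame.lean`**: every frame can be given a generator `σ₀` for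
which `m59sb_TameGen` holds (`q ∤ N'`, `p ≠ q`). -/
theorem m59tg_tameGen (hq : q.Prime) (hqN' : ¬ q ∣ N') (p : ℕ) [hp : Fact p.Prime] (hpq : p ≠ q)
    (A : ValuationSubring Qb) (hA : A.LiesOverPrime q) (Fr : m59sb_Frame N' q A1 A2) :
    ∃ σ₀ : GQ, m59sb_TameGen p A { Fr with σ₀ := σ₀ } := by
  have hq2 : ¬ q ^ 2 ∣ N' * q := by
    rintro ⟨c, hc⟩
    apply hqN'
    refine ⟨c, ?_⟩
    have : q * N' = q * (q * c) := by rw [mul_comm q N', hc]; ring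
    exact Nat.eq_of_mul_eq_mul_left hq.pos this
  obtain ⟨σ₀, hσ₀, hgen⟩ := m59tg_tate (N' * q) q hq (dvd_mul_left q N') hq2 A hA p hpq
  exact ⟨σ₀, hσ₀, hgen⟩

end Cell

end Fermat.Agent.M59
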